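import Mathlib

/-!
# S55, duality engine: the final step WITHOUT local duality in degree 1

(helper244; complements `Fermat/Agent/S55/PT/Engine.lean` of helper835.)

The last step of the Poitou–Tate engine ("route C′") identifies `Ш²` with the dual of `Ш¹` from
* the cone exact sequence `L¹ →j T² →u H² →loc₂ L²`  (`T² = H²_c`),
* the shifted global duality `θ : T² ≃ Dual X¹`  (`X¹ = H¹(G_S, M')`),
* the identity `Ann_{X¹} (θ (j L¹)) = ker loc`.

In the original design the last identity was obtained from a *local duality isomorphism*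
`λ_v : H¹(G_v, M) ≃ Dual H¹(G_v, M')`, which needs local effaceability (local existence theorem
mod `p`, finiteness of local `H¹`, ...).  Here we show that it follows from the **top-degree**
local pairings alone (`LocalTop.ann_iff`): one only needs, for the short exact sequence
`0 → R → P → M → 0` used in the global shift and for each place `v`,

* exactness of `H¹(G_v, M) →∂ H²(G_v, R) → H²(G_v, P)` and of
  `H⁰(G_v, P') → H⁰(G_v, R') →δ H¹(G_v, M')`,
* `Θ_v(R) : H²(G_v, R) → Dual H⁰(G_v, R')` surjective, `Θ_v(P)` injective, naturality.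

No statement about `H¹(G_v, -)` other than these two exactness properties is used.

Everything in this file is linear algebra over a field.
-/

set_option autoImplicit false

namespace Fermat.Agent.S55.H244

open Module

section DoubleAnnihilator

variable {k : Type*} [Field k] {V : Type*} [AddCommGroup V] [Module k V]

/-- Double annihilator of a subspace: a vector killed by every functional vanishing on `W` lies
in `W`. -/
theorem mem_of_forall_dual_eq_zero (W : Submodule k V) (x : V)
    (h : ∀ φ : Dual k V, (∀ w ∈ W, φ w = 0) → φ x = 0) : x ∈ W := by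
  by_contra hx
  obtain ⟨φ, hφx, hφW⟩ := Submodule.exists_dual_map_eq_bot_of_notMem hx inferInstance
  apply hφx
  apply h φ
  intro w hw
  have : φ w ∈ W.map φ := ⟨w, hw, rfl⟩
  rw [hφW] at this
  simpa using this

/-- Double annihilator of a finite-dimensional space of functionals: a functional vanishing on
the common kernel of `A ⊆ Dual V` lies in `A`, when `V` is finite-dimensional. -/
theorem mem_of_forall_ker_le [FiniteDimensional k V] (A : Submodule k (Dual k V))
    (ψ : Dual k V) (h : ∀ y : V, (∀ φ ∈ A, φ y = 0) → ψ y = 0) : ψ ∈ A := by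
  -- apply the previous lemma in `Dual k V`, using reflexivity
  apply mem_of_forall_dual_eq_zero A ψ
  intro Φ hΦ
  obtain ⟨y, rfl⟩ := (Module.evalEquiv k V).surjective Φ
  simp only [Module.evalEquiv_apply, Module.Dual.eval_apply] at hΦ ⊢
  exact h y hΦ

end DoubleAnnihilator

section Local

variable {k : Type*} [Field k]
variable {L1 T2R T2P H0R H0P Y1 : Type*}
  [AddCommGroup L1] [Module k L1] [AddCommGroup T2R] [Module k T2R]
  [AddCommGroup T2P] [Module k T2P] [AddCommGroup H0R] [Module k H0R]
  [AddCommGroup H0P] [Module k H0P] [AddCommGroup Y1] [Module k Y1]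

/-- Top-degree local data at one place `v` for a short exact sequence `0 → R → P → M → 0`:
`L1 = H¹(G_v, M)`, `T2R = H²(G_v, R)`, `T2P = H²(G_v, P)`, `H0R = H⁰(G_v, R')`,
`H0P = H⁰(G_v, P')`, `Y1 = H¹(G_v, M')`. -/
structure LocalTop (k : Type*) [Field k] (L1 T2R T2P H0R H0P Y1 : Type*)
    [AddCommGroup L1] [Module k L1] [AddCommGroup T2R] [Module k T2R]
    [AddCommGroup T2P] [Module k T2P] [AddCommGroup H0R] [Module k H0R]
    [AddCommGroup H0P] [Module k H0P] [AddCommGroup Y1] [Module k Y1] where
  /-- connecting map `H¹(G_v, M) → H²(G_v, R)` -/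
  dv : L1 →ₗ[k] T2R
  /-- `H²(G_v, R) → H²(G_v, P)` -/
  tv : T2R →ₗ[k] T2P
  /-- `H⁰(G_v, P') → H⁰(G_v, R')` -/
  r0 : H0P →ₗ[k] H0R
  /-- connecting map `H⁰(G_v, R') → H¹(G_v, M')` -/
  del : H0R →ₗ[k] Y1
  /-- top-degree local pairing for `R` -/
  ThR : T2R →ₗ[k] Dual k H0R
  /-- top-degree local pairing for `P` -/
  ThP : T2P →ₗ[k] Dual k H0P
  dv_range : LinearMap.range dv = LinearMap.ker tv
  del_ker : LinearMap.ker del = LinearMap.range r0
  ThR_surj : Function.Surjective ThR
  ThP_inj : Function.Injective ThP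
  nat : ∀ (z : T2R) (g : H0P), ThP (tv z) g = ThR z (r0 g)

/-- **Key local lemma.**  `f ∈ H⁰(G_v, R')` pairs trivially with `∂ H¹(G_v, M)` iff
`δ f = 0` in `H¹(G_v, M')`. -/
theorem LocalTop.ann_iff (D : LocalTop k L1 T2R T2P H0R H0P Y1) (f : H0R) :
    (∀ b : L1, D.ThR (D.dv b) f = 0) ↔ D.del f = 0 := by
  constructor
  · intro h
    have hf : f ∈ LinearMap.range D.r0 := by
      apply mem_of_forall_dual_eq_zero
      intro φ hφ
      obtain ⟨z, rfl⟩ := D.ThR_surj φ
      have hz : D.tv z = 0 := by
        apply D.ThP_inj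
        rw [map_zero]
        apply LinearMap.ext
        intro g
        rw [D.nat, LinearMap.zero_apply]
        exact hφ _ ⟨g, rfl⟩
      have : z ∈ LinearMap.range D.dv := by rw [D.dv_range]; exact hz
      obtain ⟨b, rfl⟩ := this
      exact h b
    rw [← D.del_ker] at hf
    exact hf
  · intro h b
    have hf : f ∈ LinearMap.range D.r0 := by rw [← D.del_ker]; exact h
    obtain ⟨g, rfl⟩ := hf
    rw [← D.nat]
    have : D.tv (D.dv b) = 0 := by
      have : D.dv b ∈ LinearMap.ker D.tv := by rw [← D.dv_range]; exact ⟨b, rfl⟩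
      exact this
    rw [this, map_zero, LinearMap.zero_apply]

end Local

section Final

variable {k : Type*} [Field k]
variable {T2 H2 L1 L2 X1 Y1 : Type*}
  [AddCommGroup T2] [Module k T2] [AddCommGroup H2] [Module k H2]
  [AddCommGroup L1] [Module k L1] [AddCommGroup L2] [Module k L2]
  [AddCommGroup X1] [Module k X1] [AddCommGroup Y1] [Module k Y1]

/-- **Final step of the engine, annihilator form.**  Given the cone exact sequence
`L¹ →j T² →u H² →loc₂ L²`, a duality `θ : T² ≃ Dual X¹` with `X¹` finite-dimensional, and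
`Ann_{X¹} (θ (j L¹)) = ker loc`, we get `ker loc₂ ≃ Dual (ker loc)`, i.e. `Ш² ≃ Dual Ш¹`. -/
theorem sha_equiv_of_ann [FiniteDimensional k X1]
    (j : L1 →ₗ[k] T2) (u : T2 →ₗ[k] H2) (loc2 : H2 →ₗ[k] L2) (loc : X1 →ₗ[k] Y1)
    (hju : LinearMap.ker u = LinearMap.range j)
    (hu2 : LinearMap.range u = LinearMap.ker loc2)
    (θ : T2 ≃ₗ[k] Dual k X1)
    (hann : ∀ y : X1, (∀ b : L1, θ (j b) y = 0) ↔ loc y = 0) :
    Nonempty (LinearMap.ker loc2 ≃ₗ[k] Dual k (LinearMap.ker loc)) := by
  classical
  let rest : Dual k X1 →ₗ[k] Dual k (LinearMap.ker loc) :=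
    Module.Dual.transpose (R := k) (LinearMap.ker loc).subtype
  have hrest_surj : Function.Surjective rest := by
    intro φ
    obtain ⟨ψ, hψ⟩ := LinearMap.exists_extend (p := LinearMap.ker loc) φ
    exact ⟨ψ, by
      apply LinearMap.ext
      intro x
      simp only [rest, Module.Dual.transpose_apply, LinearMap.comp_apply, Submodule.subtype_apply]
      rw [← hψ]; rfl⟩
  let F : T2 →ₗ[k] Dual k (LinearMap.ker loc) := rest ∘ₗ θ.toLinearMap
  have hF_surj : Function.Surjective F := hrest_surj.comp θ.surjective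
  have hF_ker : LinearMap.ker F = LinearMap.range j := by
    apply le_antisymm
    · intro x hx
      have hx' : ∀ y : X1, loc y = 0 → θ x y = 0 := by
        intro y hy
        have := congrArg (fun φ : Dual k (LinearMap.ker loc) => φ ⟨y, hy⟩) hx
        simpa [F, rest, Module.Dual.transpose_apply] using this
      -- `θ x` lies in the space of functionals `θ (j L¹)` by the double annihilator lemma
      have hmem : θ x ∈ (LinearMap.range j).map θ.toLinearMap := by
        apply mem_of_forall_ker_le
        intro y hy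
        apply hx'
        rw [← hann]
        intro b
        exact hy _ ⟨j b, ⟨b, rfl⟩, rfl⟩
      obtain ⟨x', hx'j, hx'x⟩ := hmem
      have : x' = x := θ.injective hx'x
      rw [← this]; exact hx'j
    · rintro x ⟨b, rfl⟩
      rw [LinearMap.mem_ker]
      apply LinearMap.ext
      rintro ⟨y, hy⟩
      have hy' : loc y = 0 := hy
      simp only [F, rest, LinearMap.comp_apply, LinearEquiv.coe_coe, Module.Dual.transpose_apply,
        Submodule.subtype_apply, LinearMap.zero_apply]
      exact (hann y).2 hy' b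
  have e1 : (T2 ⧸ LinearMap.ker u) ≃ₗ[k] LinearMap.range u := u.quotKerEquivRange
  have e2 : (T2 ⧸ LinearMap.ker F) ≃ₗ[k] Dual k (LinearMap.ker loc) :=
    F.quotKerEquivOfSurjective hF_surj
  have hk : LinearMap.ker u = LinearMap.ker F := by rw [hju, hF_ker]
  have e3 : (T2 ⧸ LinearMap.ker u) ≃ₗ[k] (T2 ⧸ LinearMap.ker F) :=
    Submodule.quotEquivOfEq _ _ hk
  have e4 : LinearMap.range u ≃ₗ[k] LinearMap.ker loc2 := LinearEquiv.ofEq _ _ hu2
  exact ⟨e4.symm.trans (e1.symm.trans (e3.trans e2))⟩

end Final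

section Assembly

variable {k : Type*} [Field k]
variable {ι : Type*} [Fintype ι] [DecidableEq ι]
variable {T2 H2 L2 X1 H0R : Type*}
  [AddCommGroup T2] [Module k T2] [AddCommGroup H2] [Module k H2]
  [AddCommGroup L2] [Module k L2] [AddCommGroup X1] [Module k X1]
  [AddCommGroup H0R] [Module k H0R]
variable {L1 T2R T2P H0Rv H0Pv Y1 : ι → Type*}
  [∀ v, AddCommGroup (L1 v)] [∀ v, Module k (L1 v)]
  [∀ v, AddCommGroup (T2R v)] [∀ v, Module k (T2R v)]
  [∀ v, AddCommGroup (T2P v)] [∀ v, Module k (T2P v)]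
  [∀ v, AddCommGroup (H0Rv v)] [∀ v, Module k (H0Rv v)]
  [∀ v, AddCommGroup (H0Pv v)] [∀ v, Module k (H0Pv v)]
  [∀ v, AddCommGroup (Y1 v)] [∀ v, Module k (Y1 v)]

/-- **Engine, assembled.**  Global input: the cone sequence, the shifted duality `θ`, the
surjection `δ : H⁰(G_S, R') → X¹ = H¹(G_S, M')` (global (E2)).  Local input: top-degree data
`LocalTop` at every place.  Compatibilities: `loc_v ∘ δ = δ_v ∘ res_v` and the formula
`θ (j b) (δ f) = c • ∑_v Θ_v(R) (∂_v b_v) (res_v f)` (with `c = ± 1`), which is the definition of the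
global top-degree pairing as the sum of the local ones.  Conclusion: `Ш² ≃ Dual Ш¹`. -/
theorem sha_equiv_of_localTop [FiniteDimensional k X1]
    (j : (∀ v, L1 v) →ₗ[k] T2) (u : T2 →ₗ[k] H2) (loc2 : H2 →ₗ[k] L2)
    (loc : X1 →ₗ[k] (∀ v, Y1 v))
    (hju : LinearMap.ker u = LinearMap.range j)
    (hu2 : LinearMap.range u = LinearMap.ker loc2)
    (θ : T2 ≃ₗ[k] Dual k X1)
    (del : H0R →ₗ[k] X1) (hdel : Function.Surjective del)
    (D : ∀ v, LocalTop k (L1 v) (T2R v) (T2P v) (H0Rv v) (H0Pv v) (Y1 v))
    (res : ∀ v, H0R →ₗ[k] H0Rv v)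
    (hloc : ∀ v f, (D v).del (res v f) = loc (del f) v)
    (c : k) (hc : c ≠ 0)
    (hθ : ∀ (b : ∀ v, L1 v) (f : H0R),
      θ (j b) (del f) = c * ∑ v, (D v).ThR ((D v).dv (b v)) (res v f)) :
    Nonempty (LinearMap.ker loc2 ≃ₗ[k] Dual k (LinearMap.ker loc)) := by
  classical
  refine sha_equiv_of_ann j u loc2 loc hju hu2 θ ?_
  intro y
  obtain ⟨f, rfl⟩ := hdel y
  constructor
  · intro h
    funext v
    rw [← hloc, Pi.zero_apply, ← (D v).ann_iff]
    intro bv
    have h1 := h (Pi.single v bv)
    rw [hθ] at h1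
    have h2 : ∑ w, (D w).ThR ((D w).dv ((Pi.single v bv : ∀ v, L1 v) w)) (res w f) =
        (D v).ThR ((D v).dv bv) (res v f) := by
      rw [Finset.sum_eq_single v]
      · rw [Pi.single_eq_same]
      · intro w _ hw
        rw [Pi.single_eq_of_ne hw, map_zero, map_zero, LinearMap.zero_apply]
      · intro hv
        exact absurd (Finset.mem_univ v) hv
    rw [h2] at h1
    exact (mul_eq_zero.1 h1).resolve_left hc
  · intro h b
    rw [hθ]
    have : ∀ v, (D v).ThR ((D v).dv (b v)) (res v f) = 0 := by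
      intro v
      apply ((D v).ann_iff (res v f)).2
      rw [hloc, h, Pi.zero_apply]
    simp [this]

end Assembly

end Fermat.Agent.S55.H244
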